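import Mathlib
import Fermat.Agent.LT.T6.H189.ArchIntCut

/-!
# Row LT, tower T6, leaf T6.23.04 `H189.IwaHomeoCC` (registry row 1466) -- helper905

OFF-MAIN.  `iwaHomeoCC905 : H189.IwaHomeoCC`, VERBATIM against `LT/T6/H189/ArchIntCut.lean`
(helper189@45580d1ec, sha256 db591abe06d241ac): the Iwasawa map
`jC (u₁, u₂, w, k) = diag(e^{u₁}, e^{u₂}) n(w) k : ℝ × ℝ × ℂ × U(2) → GL₂(ℂ)` is an open
embedding and surjective.  Mathlib + the two files of helper189 only.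

Route: the explicit inverse.  With the Gram matrix `G = g g*` (Hermitian, `det G = |det g|²`,
`G₁₁ = |c|² + |d|² > 0`):

    u₂ = log G₁₁ / 2,   u₁ = log |det g| - u₂,   w = G₀₁ / |det g|,   k = b⁻¹ g,
    b = diag(e^{u₁}, e^{u₂}) n(w).

`k ∈ U(2)` because `b b* = G` (four entries; the entry `(0,0)` is `det G = |det g|²`).
For `g = b k`: `G = b b*`, so the formulas return `(u₁, u₂, w)`.  Continuity: the coercion
`GL₂(ℂ) → M₂(ℂ)` is an embedding (`isEmbedding_valGL905`), all formulas are continuous in the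
entries.  The map `jC` is the `toFun` of the homeomorphism `iwaHomeo905`.
-/

set_option autoImplicit false

open MeasureTheory
open scoped Matrix ENNReal ComplexConjugate

noncomputable section

namespace Fermat.Agent.LT.T6.H905

open Fermat.Agent.LT.T6.H189

/-! ## 1. The topology of `GL₂(ℂ)` -/

/-- The coercion `GL₂(ℂ) → M₂(ℂ)` is a topological embedding. -/
theorem isEmbedding_valGL905 :
    Topology.IsEmbedding (Units.val : GL (Fin 2) ℂ → Matrix (Fin 2) (Fin 2) ℂ) := by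
  refine Units.isEmbedding_val_mk' (f := fun A : Matrix (Fin 2) (Fin 2) ℂ => A⁻¹) ?_ ?_
  · intro A hA
    have hdet : A.det ≠ 0 := by
      have := (Matrix.isUnit_iff_isUnit_det A).mp hA
      exact this.ne_zero
    refine ContinuousAt.continuousWithinAt (continuousAt_matrix_inv A ?_)
    have : (Ring.inverse : ℂ → ℂ) = fun x => x⁻¹ := by
      funext x
      exact Ring.inverse_eq_inv x
    rw [this]
    exact continuousAt_inv₀ hdet
  · intro u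
    exact (Matrix.coe_units_inv u).symm

/-- A map into `GL₂(ℂ)` is continuous as soon as its matrix is. -/
theorem continuous_toGL905 {X : Type*} [TopologicalSpace X] {f : X → GL (Fin 2) ℂ}
    (h : Continuous fun x => (f x : Matrix (Fin 2) (Fin 2) ℂ)) : Continuous f :=
  isEmbedding_valGL905.continuous_iff.mpr h

/-! ## 2. The Borel part and the Gram matrix -/

/-- The Borel element `diag(e^{u₁}, e^{u₂}) n(w)`. -/
def bor905 (p : ℝ × ℝ × ℂ) : GL (Fin 2) ℂ := dgC p.1 p.2.1 * unC p.2.2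

theorem coe_bor905 (p : ℝ × ℝ × ℂ) :
    ((bor905 p : GL (Fin 2) ℂ) : Matrix (Fin 2) (Fin 2) ℂ)
      = !![(Real.exp p.1 : ℂ), (Real.exp p.1 : ℂ) * p.2.2; 0, (Real.exp p.2.1 : ℂ)] := by
  unfold bor905 dgC unC
  rw [Matrix.GeneralLinearGroup.coe_mul]
  ext i j
  fin_cases i <;> fin_cases j <;>
    simp [Matrix.GeneralLinearGroup.mkOfDetNeZero, Matrix.mul_apply, Fin.sum_univ_two]

theorem continuous_bor905 : Continuous bor905 := by
  refine continuous_toGL905 ?_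
  simp_rw [coe_bor905]
  refine continuous_matrix fun i j => ?_
  fin_cases i <;> fin_cases j
  · show Continuous fun p : ℝ × ℝ × ℂ => ((Real.exp p.1 : ℝ) : ℂ)
    exact Complex.continuous_ofReal.comp (Real.continuous_exp.comp continuous_fst)
  · show Continuous fun p : ℝ × ℝ × ℂ => ((Real.exp p.1 : ℝ) : ℂ) * p.2.2
    exact (Complex.continuous_ofReal.comp (Real.continuous_exp.comp continuous_fst)).mul
      (continuous_snd.comp continuous_snd)
  · show Continuous fun _ : ℝ × ℝ × ℂ => (0 : ℂ)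
    exact continuous_const
  · show Continuous fun p : ℝ × ℝ × ℂ => ((Real.exp p.2.1 : ℝ) : ℂ)
    exact Complex.continuous_ofReal.comp
      (Real.continuous_exp.comp (continuous_fst.comp continuous_snd))

/-- The Gram matrix `g g*`. -/
def gram905 (g : GL (Fin 2) ℂ) : Matrix (Fin 2) (Fin 2) ℂ :=
  (g : Matrix (Fin 2) (Fin 2) ℂ) * (g : Matrix (Fin 2) (Fin 2) ℂ)ᴴ

theorem gram_apply905 (g : GL (Fin 2) ℂ) (i j : Fin 2) :
    gram905 g i j = (g : Matrix (Fin 2) (Fin 2) ℂ) i 0 * conj ((g : Matrix (Fin 2) (Fin 2) ℂ) j 0)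
      + (g : Matrix (Fin 2) (Fin 2) ℂ) i 1 * conj ((g : Matrix (Fin 2) (Fin 2) ℂ) j 1) := by
  unfold gram905
  rw [Matrix.mul_apply, Fin.sum_univ_two]
  rfl

theorem continuous_gram905 : Continuous gram905 :=
  Units.continuous_val.matrix_mul Units.continuous_val.matrix_conjTranspose

theorem det_ne_zero905 (g : GL (Fin 2) ℂ) : (g : Matrix (Fin 2) (Fin 2) ℂ).det ≠ 0 := by
  have h := (Matrix.isUnit_iff_isUnit_det (g : Matrix (Fin 2) (Fin 2) ℂ)).mp g.isUnit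
  exact h.ne_zero

/-- `G₁₁ = |c|² + |d|²`. -/
def n2_905 (g : GL (Fin 2) ℂ) : ℝ :=
  Complex.normSq ((g : Matrix (Fin 2) (Fin 2) ℂ) 1 0)
    + Complex.normSq ((g : Matrix (Fin 2) (Fin 2) ℂ) 1 1)

theorem gram_one_one905 (g : GL (Fin 2) ℂ) : gram905 g 1 1 = ((n2_905 g : ℝ) : ℂ) := by
  rw [gram_apply905, Complex.mul_conj, Complex.mul_conj]
  unfold n2_905
  push_cast
  rfl

theorem n2_pos905 (g : GL (Fin 2) ℂ) : 0 < n2_905 g := by
  unfold n2_905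
  have h0 := Complex.normSq_nonneg ((g : Matrix (Fin 2) (Fin 2) ℂ) 1 0)
  have h1 := Complex.normSq_nonneg ((g : Matrix (Fin 2) (Fin 2) ℂ) 1 1)
  rcases (add_nonneg h0 h1).lt_or_eq with h | h
  · exact h
  · exfalso
    have hc : (g : Matrix (Fin 2) (Fin 2) ℂ) 1 0 = 0 :=
      Complex.normSq_eq_zero.mp (by linarith)
    have hd : (g : Matrix (Fin 2) (Fin 2) ℂ) 1 1 = 0 :=
      Complex.normSq_eq_zero.mp (by linarith)
    apply det_ne_zero905 g
    rw [Matrix.det_fin_two, hc, hd]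
    ring

theorem continuous_n2_905 : Continuous n2_905 := by
  unfold n2_905
  exact (Complex.continuous_normSq.comp ((Units.continuous_val).matrix_elem 1 0)).add
    (Complex.continuous_normSq.comp ((Units.continuous_val).matrix_elem 1 1))

/-- `G₁₀ = conj G₀₁`. -/
theorem gram_one_zero905 (g : GL (Fin 2) ℂ) : gram905 g 1 0 = conj (gram905 g 0 1) := by
  rw [gram_apply905, gram_apply905]
  simp only [map_add, map_mul, Complex.conj_conj]
  ring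

/-- `det G = det g · conj (det g)`. -/
theorem gram_det905 (g : GL (Fin 2) ℂ) :
    gram905 g 0 0 * gram905 g 1 1 - gram905 g 0 1 * gram905 g 1 0
      = (g : Matrix (Fin 2) (Fin 2) ℂ).det * conj ((g : Matrix (Fin 2) (Fin 2) ℂ).det) := by
  rw [gram_apply905, gram_apply905, gram_apply905, gram_apply905, Matrix.det_fin_two]
  simp only [map_sub, map_mul]
  ring

/-- `|det g|`. -/
def dd905 (g : GL (Fin 2) ℂ) : ℝ := ‖(g : Matrix (Fin 2) (Fin 2) ℂ).det‖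

theorem dd_pos905 (g : GL (Fin 2) ℂ) : 0 < dd905 g := norm_pos_iff.mpr (det_ne_zero905 g)

theorem dd_sq905 (g : GL (Fin 2) ℂ) :
    ((dd905 g : ℝ) : ℂ) ^ 2
      = (g : Matrix (Fin 2) (Fin 2) ℂ).det * conj ((g : Matrix (Fin 2) (Fin 2) ℂ).det) := by
  rw [Complex.mul_conj, Complex.normSq_eq_norm_sq]
  unfold dd905
  push_cast
  rfl

theorem continuous_dd905 : Continuous dd905 :=
  continuous_norm.comp (Units.continuous_val).matrix_det

/-! ## 3. The inverse map -/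

/-- `u₂ = log G₁₁ / 2`. -/
def iwU2_905 (g : GL (Fin 2) ℂ) : ℝ := Real.log (n2_905 g) / 2

/-- `u₁ = log |det g| - u₂`. -/
def iwU1_905 (g : GL (Fin 2) ℂ) : ℝ := Real.log (dd905 g) - iwU2_905 g

/-- `w = G₀₁ / |det g|`. -/
def iwW905 (g : GL (Fin 2) ℂ) : ℂ := gram905 g 0 1 / ((dd905 g : ℝ) : ℂ)

/-- The Borel part of `g`. -/
def iwB905 (g : GL (Fin 2) ℂ) : GL (Fin 2) ℂ := bor905 (iwU1_905 g, iwU2_905 g, iwW905 g)

/-- The unitary part of `g`. -/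
def iwK905 (g : GL (Fin 2) ℂ) : GL (Fin 2) ℂ := (iwB905 g)⁻¹ * g

theorem continuous_iwU2_905 : Continuous iwU2_905 :=
  (continuous_n2_905.log fun g => (n2_pos905 g).ne').div_const 2

theorem continuous_iwU1_905 : Continuous iwU1_905 :=
  (continuous_dd905.log fun g => (dd_pos905 g).ne').sub continuous_iwU2_905

theorem continuous_iwW905 : Continuous iwW905 := by
  unfold iwW905
  refine (continuous_gram905.matrix_elem 0 1).div
    (Complex.continuous_ofReal.comp continuous_dd905) fun g => ?_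
  exact Complex.ofReal_ne_zero.mpr (dd_pos905 g).ne'

theorem continuous_iwB905 : Continuous iwB905 :=
  continuous_bor905.comp
    (continuous_iwU1_905.prodMk (continuous_iwU2_905.prodMk continuous_iwW905))

theorem continuous_iwK905 : Continuous iwK905 :=
  continuous_iwB905.inv.mul continuous_id

theorem exp_iwU2_sq905 (g : GL (Fin 2) ℂ) : Real.exp (iwU2_905 g) ^ 2 = n2_905 g := by
  unfold iwU2_905
  rw [← Real.exp_nat_mul]
  have : ((2 : ℕ) : ℝ) * (Real.log (n2_905 g) / 2) = Real.log (n2_905 g) := by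
    push_cast
    ring
  rw [this, Real.exp_log (n2_pos905 g)]

theorem exp_iwU1_mul905 (g : GL (Fin 2) ℂ) :
    Real.exp (iwU1_905 g) * Real.exp (iwU2_905 g) = dd905 g := by
  unfold iwU1_905
  rw [← Real.exp_add, sub_add_cancel, Real.exp_log (dd_pos905 g)]

/-- Pure algebra: the entry `(0,0)` of `b b* = G`. -/
theorem alg00_905 (E1 E2 D w wc A N X Xc Δ : ℂ) (hE2 : E2 ≠ 0) (hs : E2 ^ 2 = N)
    (hE : E1 * E2 = D) (hD : D ^ 2 = Δ) (hw : D * w = X) (hwc : D * wc = Xc)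
    (hL : A * N - X * Xc = Δ) : E1 * E1 + E1 * w * (E1 * wc) = A := by
  have h : (E1 * E1 + E1 * w * (E1 * wc)) * E2 ^ 2 = A * E2 ^ 2 := by
    calc (E1 * E1 + E1 * w * (E1 * wc)) * E2 ^ 2
        = (E1 * E2) ^ 2 + (E1 * E2 * w) * (E1 * E2 * wc) := by ring
      _ = D ^ 2 + (D * w) * (D * wc) := by rw [hE]
      _ = Δ + X * Xc := by rw [hD, hw, hwc]
      _ = A * E2 ^ 2 := by rw [hs, ← hL]; ring
  exact mul_right_cancel₀ (pow_ne_zero 2 hE2) h

/-- The Gram matrix of a Borel element. -/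
theorem bor_mul_conjTranspose905 (p : ℝ × ℝ × ℂ) :
    ((bor905 p : GL (Fin 2) ℂ) : Matrix (Fin 2) (Fin 2) ℂ)
        * ((bor905 p : GL (Fin 2) ℂ) : Matrix (Fin 2) (Fin 2) ℂ)ᴴ
      = !![(Real.exp p.1 : ℂ) * (Real.exp p.1 : ℂ)
            + (Real.exp p.1 : ℂ) * p.2.2 * ((Real.exp p.1 : ℂ) * conj p.2.2),
          (Real.exp p.1 : ℂ) * p.2.2 * (Real.exp p.2.1 : ℂ);
          (Real.exp p.2.1 : ℂ) * ((Real.exp p.1 : ℂ) * conj p.2.2),
          (Real.exp p.2.1 : ℂ) * (Real.exp p.2.1 : ℂ)] := by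
  rw [coe_bor905]
  ext i j
  fin_cases i <;> fin_cases j <;>
    simp [-Complex.ofReal_exp, Matrix.mul_apply, Fin.sum_univ_two, Matrix.conjTranspose_apply,
      Complex.conj_ofReal]

/-- `b b* = g g*` for the Borel part `b` of `g`. -/
theorem iwB_gram905 (g : GL (Fin 2) ℂ) :
    ((iwB905 g : GL (Fin 2) ℂ) : Matrix (Fin 2) (Fin 2) ℂ)
        * ((iwB905 g : GL (Fin 2) ℂ) : Matrix (Fin 2) (Fin 2) ℂ)ᴴ = gram905 g := by
  unfold iwB905
  rw [bor_mul_conjTranspose905]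
  have hD0 : ((dd905 g : ℝ) : ℂ) ≠ 0 := Complex.ofReal_ne_zero.mpr (dd_pos905 g).ne'
  have hE2 : ((Real.exp (iwU2_905 g) : ℝ) : ℂ) ≠ 0 :=
    Complex.ofReal_ne_zero.mpr (Real.exp_ne_zero _)
  have hs : ((Real.exp (iwU2_905 g) : ℝ) : ℂ) ^ 2 = gram905 g 1 1 := by
    rw [gram_one_one905, ← exp_iwU2_sq905]
    push_cast
    rfl
  have hE : ((Real.exp (iwU1_905 g) : ℝ) : ℂ) * ((Real.exp (iwU2_905 g) : ℝ) : ℂ)
      = ((dd905 g : ℝ) : ℂ) := by
    rw [← exp_iwU1_mul905]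
    push_cast
    rfl
  have hw : ((dd905 g : ℝ) : ℂ) * iwW905 g = gram905 g 0 1 := by
    unfold iwW905
    field_simp
  have hwc : ((dd905 g : ℝ) : ℂ) * conj (iwW905 g) = gram905 g 1 0 := by
    rw [gram_one_zero905, ← hw, map_mul, Complex.conj_ofReal]
  have hL : gram905 g 0 0 * gram905 g 1 1 - gram905 g 0 1 * gram905 g 1 0
      = ((dd905 g : ℝ) : ℂ) ^ 2 := by
    rw [gram_det905, dd_sq905]
  ext i j
  fin_cases i <;> fin_cases j
  · show ((Real.exp (iwU1_905 g) : ℝ) : ℂ) * ((Real.exp (iwU1_905 g) : ℝ) : ℂ)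
        + ((Real.exp (iwU1_905 g) : ℝ) : ℂ) * iwW905 g
          * (((Real.exp (iwU1_905 g) : ℝ) : ℂ) * conj (iwW905 g)) = gram905 g 0 0
    exact alg00_905 _ _ _ _ _ _ _ _ _ _ hE2 hs hE rfl hw hwc hL
  · show ((Real.exp (iwU1_905 g) : ℝ) : ℂ) * iwW905 g * ((Real.exp (iwU2_905 g) : ℝ) : ℂ)
        = gram905 g 0 1
    rw [← hw, ← hE]
    ring
  · show ((Real.exp (iwU2_905 g) : ℝ) : ℂ)
        * (((Real.exp (iwU1_905 g) : ℝ) : ℂ) * conj (iwW905 g)) = gram905 g 1 0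
    rw [← hwc, ← hE]
    ring
  · show ((Real.exp (iwU2_905 g) : ℝ) : ℂ) * ((Real.exp (iwU2_905 g) : ℝ) : ℂ)
        = gram905 g 1 1
    rw [← hs]
    ring

/-- The unitary part is unitary. -/
theorem iwK_mem905 (g : GL (Fin 2) ℂ) : iwK905 g ∈ U2sub := by
  show ((iwK905 g : GL (Fin 2) ℂ) : Matrix (Fin 2) (Fin 2) ℂ)
      * ((iwK905 g : GL (Fin 2) ℂ) : Matrix (Fin 2) (Fin 2) ℂ)ᴴ = 1
  unfold iwK905
  rw [Matrix.GeneralLinearGroup.coe_mul, Matrix.conjTranspose_mul]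
  have hG : (g : Matrix (Fin 2) (Fin 2) ℂ) * (g : Matrix (Fin 2) (Fin 2) ℂ)ᴴ
      = ((iwB905 g : GL (Fin 2) ℂ) : Matrix (Fin 2) (Fin 2) ℂ)
        * ((iwB905 g : GL (Fin 2) ℂ) : Matrix (Fin 2) (Fin 2) ℂ)ᴴ := (iwB_gram905 g).symm
  have hinv : (((iwB905 g)⁻¹ : GL (Fin 2) ℂ) : Matrix (Fin 2) (Fin 2) ℂ)
      * ((iwB905 g : GL (Fin 2) ℂ) : Matrix (Fin 2) (Fin 2) ℂ) = 1 := by
    rw [← Matrix.GeneralLinearGroup.coe_mul, inv_mul_cancel]
    rfl
  calc (((iwB905 g)⁻¹ : GL (Fin 2) ℂ) : Matrix (Fin 2) (Fin 2) ℂ)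
        * (g : Matrix (Fin 2) (Fin 2) ℂ)
        * ((g : Matrix (Fin 2) (Fin 2) ℂ)ᴴ
          * (((iwB905 g)⁻¹ : GL (Fin 2) ℂ) : Matrix (Fin 2) (Fin 2) ℂ)ᴴ)
      = (((iwB905 g)⁻¹ : GL (Fin 2) ℂ) : Matrix (Fin 2) (Fin 2) ℂ)
        * ((g : Matrix (Fin 2) (Fin 2) ℂ) * (g : Matrix (Fin 2) (Fin 2) ℂ)ᴴ)
        * (((iwB905 g)⁻¹ : GL (Fin 2) ℂ) : Matrix (Fin 2) (Fin 2) ℂ)ᴴ := by
        simp only [Matrix.mul_assoc]
    _ = ((((iwB905 g)⁻¹ : GL (Fin 2) ℂ) : Matrix (Fin 2) (Fin 2) ℂ)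
          * ((iwB905 g : GL (Fin 2) ℂ) : Matrix (Fin 2) (Fin 2) ℂ))
        * ((((iwB905 g)⁻¹ : GL (Fin 2) ℂ) : Matrix (Fin 2) (Fin 2) ℂ)
          * ((iwB905 g : GL (Fin 2) ℂ) : Matrix (Fin 2) (Fin 2) ℂ))ᴴ := by
        rw [hG, Matrix.conjTranspose_mul]
        simp only [Matrix.mul_assoc]
    _ = 1 := by rw [hinv, Matrix.conjTranspose_one, Matrix.mul_one]

/-! ## 4. The formulas on `b k` -/

theorem norm_det_of_mem905 {k : GL (Fin 2) ℂ} (hk : k ∈ U2sub) :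
    ‖(k : Matrix (Fin 2) (Fin 2) ℂ).det‖ = 1 := by
  have h1 : (k : Matrix (Fin 2) (Fin 2) ℂ) * (k : Matrix (Fin 2) (Fin 2) ℂ)ᴴ = 1 := hk
  have h2 := congrArg Matrix.det h1
  rw [Matrix.det_mul, Matrix.det_conjTranspose, Matrix.det_one] at h2
  have h3 : Complex.normSq (k : Matrix (Fin 2) (Fin 2) ℂ).det = 1 := by
    have h4 : ((Complex.normSq (k : Matrix (Fin 2) (Fin 2) ℂ).det : ℝ) : ℂ) = 1 := by
      rw [← Complex.mul_conj]
      exact h2
    exact_mod_cast h4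
  rw [Complex.normSq_eq_norm_sq] at h3
  have h5 : (0 : ℝ) ≤ ‖(k : Matrix (Fin 2) (Fin 2) ℂ).det‖ := norm_nonneg _
  nlinarith [h3, h5]

theorem gram_bor_mul905 (p : ℝ × ℝ × ℂ) {k : GL (Fin 2) ℂ} (hk : k ∈ U2sub) :
    gram905 (bor905 p * k)
      = ((bor905 p : GL (Fin 2) ℂ) : Matrix (Fin 2) (Fin 2) ℂ)
        * ((bor905 p : GL (Fin 2) ℂ) : Matrix (Fin 2) (Fin 2) ℂ)ᴴ := by
  have h1 : (k : Matrix (Fin 2) (Fin 2) ℂ) * (k : Matrix (Fin 2) (Fin 2) ℂ)ᴴ = 1 := hk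
  unfold gram905
  rw [Matrix.GeneralLinearGroup.coe_mul, Matrix.conjTranspose_mul]
  calc ((bor905 p : GL (Fin 2) ℂ) : Matrix (Fin 2) (Fin 2) ℂ) * (k : Matrix (Fin 2) (Fin 2) ℂ)
        * ((k : Matrix (Fin 2) (Fin 2) ℂ)ᴴ
          * ((bor905 p : GL (Fin 2) ℂ) : Matrix (Fin 2) (Fin 2) ℂ)ᴴ)
      = ((bor905 p : GL (Fin 2) ℂ) : Matrix (Fin 2) (Fin 2) ℂ)
        * ((k : Matrix (Fin 2) (Fin 2) ℂ) * (k : Matrix (Fin 2) (Fin 2) ℂ)ᴴ)
        * ((bor905 p : GL (Fin 2) ℂ) : Matrix (Fin 2) (Fin 2) ℂ)ᴴ := by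
        simp only [Matrix.mul_assoc]
    _ = _ := by rw [h1, Matrix.mul_one]

theorem n2_bor_mul905 (p : ℝ × ℝ × ℂ) {k : GL (Fin 2) ℂ} (hk : k ∈ U2sub) :
    n2_905 (bor905 p * k) = Real.exp p.2.1 ^ 2 := by
  have h := gram_one_one905 (bor905 p * k)
  rw [gram_bor_mul905 p hk, bor_mul_conjTranspose905] at h
  have h2 : (((Real.exp p.2.1 : ℝ) : ℂ) * ((Real.exp p.2.1 : ℝ) : ℂ))
      = ((n2_905 (bor905 p * k) : ℝ) : ℂ) := h
  have h3 : ((Real.exp p.2.1 * Real.exp p.2.1 : ℝ) : ℂ) = ((n2_905 (bor905 p * k) : ℝ) : ℂ) := by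
    rw [← h2]
    push_cast
    rfl
  have h4 := Complex.ofReal_injective h3
  rw [← h4]
  ring

theorem dd_bor_mul905 (p : ℝ × ℝ × ℂ) {k : GL (Fin 2) ℂ} (hk : k ∈ U2sub) :
    dd905 (bor905 p * k) = Real.exp p.1 * Real.exp p.2.1 := by
  unfold dd905
  rw [Matrix.GeneralLinearGroup.coe_mul, Matrix.det_mul, norm_mul, norm_det_of_mem905 hk,
    mul_one, coe_bor905, Matrix.det_fin_two_of]
  have : ((Real.exp p.1 : ℝ) : ℂ) * ((Real.exp p.2.1 : ℝ) : ℂ)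
      - ((Real.exp p.1 : ℝ) : ℂ) * p.2.2 * 0
      = ((Real.exp p.1 * Real.exp p.2.1 : ℝ) : ℂ) := by
    push_cast
    ring
  rw [this, Complex.norm_real, Real.norm_eq_abs,
    abs_of_pos (mul_pos (Real.exp_pos _) (Real.exp_pos _))]

theorem iwU2_bor_mul905 (p : ℝ × ℝ × ℂ) {k : GL (Fin 2) ℂ} (hk : k ∈ U2sub) :
    iwU2_905 (bor905 p * k) = p.2.1 := by
  unfold iwU2_905
  rw [n2_bor_mul905 p hk, Real.log_pow, Real.log_exp]
  push_cast
  ring

theorem iwU1_bor_mul905 (p : ℝ × ℝ × ℂ) {k : GL (Fin 2) ℂ} (hk : k ∈ U2sub) :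
    iwU1_905 (bor905 p * k) = p.1 := by
  unfold iwU1_905
  rw [iwU2_bor_mul905 p hk, dd_bor_mul905 p hk, ← Real.exp_add, Real.log_exp]
  ring

theorem iwW_bor_mul905 (p : ℝ × ℝ × ℂ) {k : GL (Fin 2) ℂ} (hk : k ∈ U2sub) :
    iwW905 (bor905 p * k) = p.2.2 := by
  unfold iwW905
  rw [dd_bor_mul905 p hk, gram_bor_mul905 p hk, bor_mul_conjTranspose905]
  show ((Real.exp p.1 : ℝ) : ℂ) * p.2.2 * ((Real.exp p.2.1 : ℝ) : ℂ)
      / ((Real.exp p.1 * Real.exp p.2.1 : ℝ) : ℂ) = p.2.2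
  have h1 : ((Real.exp p.1 : ℝ) : ℂ) ≠ 0 := Complex.ofReal_ne_zero.mpr (Real.exp_ne_zero _)
  have h2 : ((Real.exp p.2.1 : ℝ) : ℂ) ≠ 0 := Complex.ofReal_ne_zero.mpr (Real.exp_ne_zero _)
  push_cast
  field_simp

theorem iwB_bor_mul905 (p : ℝ × ℝ × ℂ) {k : GL (Fin 2) ℂ} (hk : k ∈ U2sub) :
    iwB905 (bor905 p * k) = bor905 p := by
  unfold iwB905
  rw [iwU1_bor_mul905 p hk, iwU2_bor_mul905 p hk, iwW_bor_mul905 p hk]

theorem iwK_bor_mul905 (p : ℝ × ℝ × ℂ) {k : GL (Fin 2) ℂ} (hk : k ∈ U2sub) :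
    iwK905 (bor905 p * k) = k := by
  unfold iwK905
  rw [iwB_bor_mul905 p hk, inv_mul_cancel_left]

/-! ## 5. The homeomorphism and the leaf -/

theorem jC_eq905 (p : ℝ × ℝ × ℂ × U2sub) :
    jC p = bor905 (p.1, p.2.1, p.2.2.1) * (p.2.2.2 : GL (Fin 2) ℂ) := rfl

/-- The Iwasawa homeomorphism `ℝ × ℝ × ℂ × U(2) ≃ GL₂(ℂ)`. -/
def iwaHomeo905 : (ℝ × ℝ × ℂ × U2sub) ≃ₜ GL (Fin 2) ℂ where
  toFun := jC
  invFun g := (iwU1_905 g, iwU2_905 g, iwW905 g, ⟨iwK905 g, iwK_mem905 g⟩)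
  left_inv := by
    rintro ⟨u₁, u₂, w, k, hk⟩
    rw [jC_eq905]
    refine Prod.ext ?_ (Prod.ext ?_ (Prod.ext ?_ (Subtype.ext ?_)))
    · exact iwU1_bor_mul905 (u₁, u₂, w) hk
    · exact iwU2_bor_mul905 (u₁, u₂, w) hk
    · exact iwW_bor_mul905 (u₁, u₂, w) hk
    · exact iwK_bor_mul905 (u₁, u₂, w) hk
  right_inv := by
    intro g
    rw [jC_eq905]
    show bor905 (iwU1_905 g, iwU2_905 g, iwW905 g) * ((iwB905 g)⁻¹ * g) = g
    exact mul_inv_cancel_left (iwB905 g) g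
  continuous_toFun := by
    have h : Continuous fun p : ℝ × ℝ × ℂ × U2sub =>
        bor905 (p.1, p.2.1, p.2.2.1) * (p.2.2.2 : GL (Fin 2) ℂ) := by
      refine (continuous_bor905.comp ?_).mul ?_
      · exact continuous_fst.prodMk ((continuous_fst.comp continuous_snd).prodMk
          (continuous_fst.comp (continuous_snd.comp continuous_snd)))
      · exact continuous_subtype_val.comp
          (continuous_snd.comp (continuous_snd.comp continuous_snd))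
    exact h
  continuous_invFun :=
    continuous_iwU1_905.prodMk (continuous_iwU2_905.prodMk
      (continuous_iwW905.prodMk (continuous_iwK905.subtype_mk iwK_mem905)))

/-- **LEAF T6.23.04 `IwaHomeoCC`** (L2'): the Iwasawa map of `GL₂(ℂ)` is a homeomorphism. -/
theorem iwaHomeoCC905 : IwaHomeoCC :=
  ⟨iwaHomeo905.isOpenEmbedding, iwaHomeo905.surjective⟩

end Fermat.Agent.LT.T6.H905
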